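/-
Programme MAZ (S15), brick K3-LEVELS (owner helper26), U3' half (helper77), file 1: (TORS) OVER A BASE
WITH THE SAME SPECIAL FIBRE (abstract form: `O → O'` with `NodalBC53.Fibre.SameFibre`).

* `maximalIdeal_eq_span_of_sameFibre` : `O`, `O'` local, `φ : O → O'` inducing an isomorphism modulo `π`,
  `𝔪_O = (π)`  ⇒  `𝔪_{O'} = (φ π)`;
* `irreducible_map_of_sameFibre` : for DVRs, `π` irreducible ⇒ `φ π` irreducible;
* `exists_pow_mem_J1_transfer` : helper22's `PicFinModel22.exists_pow_mem_J1_of_mem_P00` applied to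
  helper53's transferred nodal data `(transfer c0 h hreg hg, compHub c0 h hreg hg X)`: if the two
  vertical primes of each chart are incomparable over `O` and the components live over a FINITE field,
  every class of multidegree `0` over `O'` has a power in the kernel of reduction.
-/
import Mathlib
import Fermat.Agent.MAZ.PicFinModel22.Hub
import Fermat.Agent.T1B.NodalBC53.Bal
import Fermat.Agent.T1B.NodalBC23.IncompTransfer

set_option autoImplicit false
set_option linter.unusedSectionVars false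
set_option linter.style.haveILetI false

universe u

open TensorProduct

namespace Fermat.Agent.MAZ.K3Levels77

open Fermat.Agent.Jac Fermat.Agent.Jac.BaseChange75 Fermat.Agent.T1B.RedN3 Fermat.Agent.T1B.Bal60
open Fermat.Agent.T1.RedIface75
open Fermat.Agent.T1B.NodalBC53.Fibre Fermat.Agent.T1B.NodalBC53.Transfer
  Fermat.Agent.T1B.NodalBC53.Bal
open scoped Fermat.Agent.Jac.BaseChange75

/-! ### Local rings with the same fibre -/

section Local

variable {O O' : Type*} [CommRing O] [CommRing O'] [IsLocalRing O] [IsLocalRing O']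

/-- If `φ : O → O'` induces an isomorphism modulo `π` and `𝔪_O = (π)`, then `𝔪_{O'} = (φ π)`. -/
theorem maximalIdeal_eq_span_of_sameFibre (φ : O →+* O') {π : O} (h : SameFibre φ π)
    (hπ : IsLocalRing.maximalIdeal O = Ideal.span {π}) :
    IsLocalRing.maximalIdeal O' = Ideal.span {φ π} := by
  have hπm : π ∈ IsLocalRing.maximalIdeal O := by
    rw [hπ]; exact Ideal.mem_span_singleton_self π
  have hφπ : φ π ∈ IsLocalRing.maximalIdeal O' := by
    rw [IsLocalRing.mem_maximalIdeal, mem_nonunits_iff]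
    intro hu
    obtain ⟨v, hv⟩ := hu.exists_right_inv
    obtain ⟨w, hw⟩ := h.inj 1 ⟨v, by rw [map_one, hv]⟩
    exact (IsLocalRing.mem_maximalIdeal _).1 hπm (IsUnit.of_mul_eq_one w hw.symm)
  apply le_antisymm
  · intro y hy
    obtain ⟨x, z, hxz⟩ := h.surj y
    have h1 : φ x ∈ IsLocalRing.maximalIdeal O' := by
      have e : φ x = y - φ π * z := by rw [hxz]; ring
      rw [e]
      exact Ideal.sub_mem _ hy (Ideal.mul_mem_right _ _ hφπ)
    have h2 : x ∈ IsLocalRing.maximalIdeal O := by
      rw [IsLocalRing.mem_maximalIdeal, mem_nonunits_iff]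
      intro hu
      exact (IsLocalRing.mem_maximalIdeal _).1 h1 (hu.map φ)
    rw [hπ, Ideal.mem_span_singleton'] at h2
    obtain ⟨w, hw⟩ := h2
    rw [Ideal.mem_span_singleton']
    exact ⟨φ w + z, by rw [hxz, ← hw, map_mul]; ring⟩
  · rw [Ideal.span_le, Set.singleton_subset_iff]
    exact hφπ

end Local

section DVR

variable {O O' : Type*} [CommRing O] [CommRing O'] [IsDomain O] [IsDomain O']
  [IsDiscreteValuationRing O] [IsDiscreteValuationRing O']

/-- For discrete valuation rings: a uniformiser is mapped to a uniformiser by a map inducing an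
isomorphism modulo it. -/
theorem irreducible_map_of_sameFibre (φ : O →+* O') {π : O} (h : SameFibre φ π)
    (hπ : Irreducible π) : Irreducible (φ π) :=
  (IsDiscreteValuationRing.irreducible_iff_uniformizer _).2
    (maximalIdeal_eq_span_of_sameFibre φ h
      ((IsDiscreteValuationRing.irreducible_iff_uniformizer _).1 hπ))

end DVR

/-! ### (TORS) for the transferred nodal data -/

section Hub

variable {W B0 B1 B01 : Type u} [CommRing W] [CommRing B0] [CommRing B1] [CommRing B01]
  [Algebra W B0] [Algebra W B1] [Algebra W B01] [Algebra B0 B01] [Algebra B1 B01]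
  [IsScalarTower W B0 B01] [IsScalarTower W B1 B01]
  (c0 : TwoChart W B0 B1 B01)
  {O O' : Type u} [CommRing O] [CommRing O'] [Algebra W O] [Algebra W O'] [Algebra O O']
  [IsScalarTower W O O']
  [Module.Flat W B0] [Module.Flat W B1] [Module.Flat W B01]
  [IsDomain O'] [IsDiscreteValuationRing O']
  {π : O}
  (h : SameFibre (algebraMap O O') π)
  (hreg : ∀ z : O', algebraMap O O' π * z = 0 → z = 0)
  (hg : NodalGood (c0.baseChange O) π (Fin 2))
  {K : Type u} [Field K] [Finite K]
  (X : ∀ i, Comp (c0.baseChange O) (hg.P0 i) (hg.P1 i) K)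

/-- **(TORS) over `O'`** for helper53's transferred nodal data: every class of multidegree `0` over
`O'` has a power in the kernel of reduction `J¹(O')`. -/
theorem exists_pow_mem_J1_transfer
    (hπ' : IsLocalRing.maximalIdeal O' = Ideal.span {algebraMap O O' π})
    (hne0 : ¬ hg.P0 1 ≤ hg.P0 0) (hne1 : ¬ hg.P1 1 ≤ hg.P1 0)
    (x : PicX c0 O') (hx : x ∈ P00 (transfer c0 h hreg hg) (compHub c0 h hreg hg X)) :
    ∃ n : ℕ, 0 < n ∧ x ^ n ∈ J1 c0 O' :=
  Fermat.Agent.MAZ.PicFinModel22.exists_pow_mem_J1_of_mem_P00 c0 hπ'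
    (transfer c0 h hreg hg) (compHub c0 h hreg hg X)
    (Fermat.Agent.T1B.NodalBC23.IncompTransfer.not_le_transfer_P0 c0 h hreg hg hne0)
    (Fermat.Agent.T1B.NodalBC23.IncompTransfer.not_le_transfer_P1 c0 h hreg hg hne1) x hx

/-- The same with the power in `P00 ⊓ J¹`. -/
theorem exists_pow_mem_inf_J1_transfer
    (hπ' : IsLocalRing.maximalIdeal O' = Ideal.span {algebraMap O O' π})
    (hne0 : ¬ hg.P0 1 ≤ hg.P0 0) (hne1 : ¬ hg.P1 1 ≤ hg.P1 0)
    (x : PicX c0 O') (hx : x ∈ P00 (transfer c0 h hreg hg) (compHub c0 h hreg hg X)) :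
    ∃ n : ℕ, 0 < n ∧
      x ^ n ∈ P00 (transfer c0 h hreg hg) (compHub c0 h hreg hg X) ⊓ J1 c0 O' := by
  obtain ⟨n, hn, hxn⟩ := exists_pow_mem_J1_transfer c0 h hreg hg X hπ' hne0 hne1 x hx
  exact ⟨n, hn, Subgroup.mem_inf.2 ⟨Subgroup.pow_mem _ hx n, hxn⟩⟩

end Hub

end Fermat.Agent.MAZ.K3Levels77
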