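/-
Programme MAZ (S15), brick K3-LEVELS (owner helper26), U3' half (helper77), file 2: THE PER-LEVEL
NODAL PACKAGE AND THE LEVEL-WISE (TORS), in the vocabulary of `T1B/Local66/Union` (`NLevel p K`,
`PicO c0 E`) and `T1B/Bridge54/IpUnion` (`J1Fam c0 E`).

`c0 : TwoChart (Wb p K) B0 B1 B01` ANY two-chart datum over `W = Wb p K`.

* `LevelData c0 E` : ONE object with the nodal data of the special fibre over the complete level
  `O_E = intSubring p E.E` : a uniformiser `π`, `hg : NodalGood (c0.baseChange O_E) π (Fin 2)`, the two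
  components `X i : Bal60.Comp …` over a FINITE field `κ`, connectedness, and the incomparability of
  the two vertical primes on each chart.  (`irr`, `hg`, `conn`, `X` are exactly the arguments of
  helper26's `K3Levels26.hext_of_P00`.)
* `LevelData.P00 : Subgroup (PicO c0 E)` := `Bal60.P00 D.hg D.X` (classes of multidegree `0`);
* `LevelData.htors` : `∀ x ∈ D.P00, ∃ h > 0, x ^ h ∈ J1Fam c0 E`
  (= helper22's `PicFinModel22.exists_pow_mem_J1_of_mem_P00`);  `htors_of_levelData` : the family form
  = the hypothesis `htors` of `K3Asm7.k3_local`, VERBATIM, for `P00 E := (D E).P00`;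
* `LevelData.J1Fam_le_P00` : `hJP` of `K3Asm7.k3_local`;
* `LevelData.ofNumField` : the package over `O_E`, `E = E_L`, from the nodal data over the NUMBER
  FIELD level `O_L = Wb p E.L` (`π_L` a uniformiser, `hg_L`, `X_L` over a finite `κ`, connectedness,
  incomparability — e.g. `NodalBC23.NodalNFEquiv.nodalGood_numField`, `NodalCoh30.compNumField`,
  `NodalBC23.IncompNF.not_le_P0_numField`), through helper53's `NodalBC53.Level/Bal` transfer;
  `LevelData.ofNumField_P00`, `mem_P00_ofNumField_iff`.
-/
import Mathlib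
import Fermat.Agent.MAZ.K3Levels77.Transfer
import Fermat.Agent.T1B.NodalBC53.Level
import Fermat.Agent.T1B.Bridge54.IpUnion

set_option autoImplicit false
set_option linter.unusedSectionVars false
set_option linter.style.haveILetI false
set_option synthInstance.maxHeartbeats 400000
set_option maxHeartbeats 1000000

open TensorProduct

open Fermat.Agent.TW.B5.Iface Fermat.Agent.RED.Interface4 Fermat.Agent.T1.HubInst98
open Fermat.Agent.T1.IntSub47 Fermat.Agent.Jac Fermat.Agent.Jac.BaseChange75
open Fermat.Agent.T1.RedIface75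
open Fermat.Agent.T1B.RedN3 Fermat.Agent.T1B.Bal60
open Fermat.Agent.T1B.Local66.LocalBase Fermat.Agent.T1B.Local66.Union
open Fermat.Agent.T1B.Bridge54.IpUnion
open Fermat.Agent.T1B.NodalBC53.Fibre Fermat.Agent.T1B.NodalBC53.Transfer
  Fermat.Agent.T1B.NodalBC53.Bal Fermat.Agent.T1B.NodalBC53.Level
open Fermat.Agent.RED.PUR.GaussGen8 (IsUnif)
open scoped Fermat.Agent.Jac.BaseChange75

noncomputable section

namespace Fermat.Agent.MAZ.K3Levels77

variable {p : ℕ} [Fact p.Prime] {K : IntermediateField ℚ Qbar}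
  {B0 B1 B01 : Type} [CommRing B0] [CommRing B1] [CommRing B01]
  [Algebra (Wb p K) B0] [Algebra (Wb p K) B1] [Algebra (Wb p K) B01] [Algebra B0 B01]
  [Algebra B1 B01] [IsScalarTower (Wb p K) B0 B01] [IsScalarTower (Wb p K) B1 B01]
  (c0 : TwoChart (Wb p K) B0 B1 B01)

/-! ### The per-level package -/

/-- **The nodal data of the special fibre over the complete level `O_E`**, as ONE object. -/
structure LevelData (E : NLevel p K) : Type 1 where
  /-- a uniformiser of `O_E` -/
  π : ↥(intSubring p E.E)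
  irr : Irreducible π
  /-- the nodal special fibre with two components -/
  hg : letI := algWO E.lev
    NodalGood (c0.baseChange ↥(intSubring p E.E)) π (Fin 2)
  /-- the (finite) field of constants of the components -/
  κ : Type
  [fieldκ : Field κ]
  [finiteκ : Finite κ]
  /-- the two components -/
  X : letI := algWO E.lev
    ∀ i, Comp (c0.baseChange ↥(intSubring p E.E)) (hg.P0 i) (hg.P1 i) κ
  conn : letI := algWO E.lev
    Connected hg
  ne0 : letI := algWO E.lev
    ¬ hg.P0 1 ≤ hg.P0 0
  ne1 : letI := algWO E.lev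
    ¬ hg.P1 1 ≤ hg.P1 0

attribute [instance] LevelData.fieldκ LevelData.finiteκ

variable {c0}

/-- The classes of multidegree `0` over `O_E`. -/
def LevelData.P00 {E : NLevel p K} (D : LevelData c0 E) : Subgroup (PicO c0 E) :=
  letI := algWO E.lev
  Fermat.Agent.T1B.Bal60.P00 D.hg D.X

theorem LevelData.maximalIdeal_eq {E : NLevel p K} (D : LevelData c0 E) :
    haveI := isDVR_O E.E
    IsLocalRing.maximalIdeal ↥(intSubring p E.E) = Ideal.span {D.π} := by
  haveI := isDVR_O E.E
  exact (IsDiscreteValuationRing.irreducible_iff_uniformizer _).1 D.irr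

/-- **Level-wise (TORS)**: every class of multidegree `0` over `O_E` has a power with trivial
reduction. -/
theorem LevelData.htors {E : NLevel p K} (D : LevelData c0 E) :
    ∀ x ∈ D.P00, ∃ h : ℕ, 0 < h ∧ x ^ h ∈ J1Fam c0 E := by
  intro x hx
  letI := algWO E.lev
  haveI := isDVR_O E.E
  exact Fermat.Agent.MAZ.PicFinModel22.exists_pow_mem_J1_of_mem_P00 c0 D.maximalIdeal_eq D.hg D.X
    D.ne0 D.ne1 x hx

/-- Level-wise (TORS) with the power in `P00 ⊓ J̃¹`. -/
theorem LevelData.htors_inf {E : NLevel p K} (D : LevelData c0 E) :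
    ∀ x ∈ D.P00, ∃ h : ℕ, 0 < h ∧ x ^ h ∈ D.P00 ⊓ J1Fam c0 E := by
  intro x hx
  obtain ⟨h, hh, hxh⟩ := D.htors x hx
  exact ⟨h, hh, Subgroup.mem_inf.2 ⟨D.P00.pow_mem hx h, hxh⟩⟩

/-- `J̃¹(O_E) ≤ P00` (`hJP` of `K3Asm7.k3_local`). -/
theorem LevelData.J1Fam_le_P00 {E : NLevel p K} (D : LevelData c0 E) :
    J1Fam c0 E ≤ D.P00 := by
  letI := algWO E.lev
  haveI := isDVR_O E.E
  exact J1_le_P00 c0 ↥(intSubring p E.E) D.hg D.X D.maximalIdeal_eq

/-- **`htors` of `K3Asm7.k3_local`, verbatim**, for the family `P00 E := (D E).P00`. -/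
theorem htors_of_levelData (D : ∀ E : NLevel p K, LevelData c0 E) :
    ∀ (E : NLevel p K), ∀ x ∈ (D E).P00, ∃ h : ℕ, 0 < h ∧ x ^ h ∈ J1Fam c0 E :=
  fun E => (D E).htors

/-- **`hJP` of `K3Asm7.k3_local`, verbatim**, for the family `P00 E := (D E).P00`. -/
theorem hJP_of_levelData (D : ∀ E : NLevel p K, LevelData c0 E) :
    ∀ E : NLevel p K, J1Fam c0 E ≤ (D E).P00 :=
  fun E => (D E).J1Fam_le_P00

/-! ### From the number field level `O_L` to the complete level `O_E`, `E = E_L` -/

/-- `ι L` is dense in `E_L`. -/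
theorem denseIn_level (E : NLevel p K) : DenseIn p E.L E.E := by
  rw [E.hE]
  exact denseIn_localField p E.L

section OfNumField

variable [Module.Flat (Wb p K) B0] [Module.Flat (Wb p K) B1] [Module.Flat (Wb p K) B01]
variable (c0)

/-- **The package over `O_E` from the nodal data over the number field level `O_L`**, `L = E.L`
(helper53's transfer along `O_L → O_E`, which induces an isomorphism modulo `π_L`). -/
def LevelData.ofNumField (E : NLevel p K) {πL : Wb p E.L}
    (hπL : IsUnif (AK (padicPlace p) E.L) πL)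
    (hgL : letI := algAK (padicPlace p) E.leL
      NodalGood (c0.baseChange (Wb p E.L)) πL (Fin 2))
    (κ : Type) [Field κ] [Finite κ]
    (XL : letI := algAK (padicPlace p) E.leL
      ∀ i, Comp (c0.baseChange (Wb p E.L)) (hgL.P0 i) (hgL.P1 i) κ)
    (connL : letI := algAK (padicPlace p) E.leL
      Connected hgL)
    (ne0L : letI := algAK (padicPlace p) E.leL
      ¬ hgL.P0 1 ≤ hgL.P0 0)
    (ne1L : letI := algAK (padicPlace p) E.leL
      ¬ hgL.P1 1 ≤ hgL.P1 0) : LevelData c0 E :=
  letI := algAK (padicPlace p) E.leL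
  letI := algWO E.levL
  letI := algWO E.lev
  haveI : IsScalarTower (Wb p K) (Wb p E.L) ↥(intSubring p E.E) := tower_W_OL_OE E.leL E.levL
  haveI := isDVR_O E.E
  { π := toO E.levL πL
    irr := (IsDiscreteValuationRing.irreducible_iff_uniformizer _).2
      (maximalIdeal_eq_span_of_sameFibre (toO E.levL)
        (sameFibre_level E.levL (denseIn_level E) hπL.ne_zero) hπL.max_eq)
    hg := transfer c0 (sameFibre_level E.levL (denseIn_level E) hπL.ne_zero)
      (regular_level E.levL hπL.ne_zero) hgL
    κ := κ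
    X := compHub c0 (sameFibre_level E.levL (denseIn_level E) hπL.ne_zero)
      (regular_level E.levL hπL.ne_zero) hgL XL
    conn := connected_transfer c0 (sameFibre_level E.levL (denseIn_level E) hπL.ne_zero)
      (regular_level E.levL hπL.ne_zero) hgL connL
    ne0 := Fermat.Agent.T1B.NodalBC23.IncompTransfer.not_le_transfer_P0 c0
      (sameFibre_level E.levL (denseIn_level E) hπL.ne_zero) (regular_level E.levL hπL.ne_zero) hgL ne0L
    ne1 := Fermat.Agent.T1B.NodalBC23.IncompTransfer.not_le_transfer_P1 c0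
      (sameFibre_level E.levL (denseIn_level E) hπL.ne_zero) (regular_level E.levL hπL.ne_zero) hgL ne1L }

/-- **Level-wise (TORS) in raw form**, for helper53's `nodalGood_level` / `compHub` (no structure, no
connectedness): every class of multidegree `0` over `O_E`, `E = E_L`, has a power with trivial
reduction. -/
theorem htors_nodalGood_level (E : NLevel p K) {πL : Wb p E.L}
    (hπL : IsUnif (AK (padicPlace p) E.L) πL)
    (hgL : letI := algAK (padicPlace p) E.leL
      NodalGood (c0.baseChange (Wb p E.L)) πL (Fin 2))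
    {κ : Type} [Field κ] [Finite κ]
    (XL : letI := algAK (padicPlace p) E.leL
      ∀ i, Comp (c0.baseChange (Wb p E.L)) (hgL.P0 i) (hgL.P1 i) κ)
    (ne0L : letI := algAK (padicPlace p) E.leL
      ¬ hgL.P0 1 ≤ hgL.P0 0)
    (ne1L : letI := algAK (padicPlace p) E.leL
      ¬ hgL.P1 1 ≤ hgL.P1 0) :
    letI := algAK (padicPlace p) E.leL
    letI := algWO E.levL
    letI := algWO E.lev
    haveI : IsScalarTower (Wb p K) (Wb p E.L) ↥(intSubring p E.E) := tower_W_OL_OE E.leL E.levL
    ∀ x ∈ (Fermat.Agent.T1B.Bal60.P00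
        (nodalGood_level c0 E.leL E.levL (denseIn_level E) hπL.ne_zero hgL)
        (compHub c0 (sameFibre_level E.levL (denseIn_level E) hπL.ne_zero)
          (regular_level E.levL hπL.ne_zero) hgL XL) : Subgroup (PicO c0 E)),
      ∃ h : ℕ, 0 < h ∧ x ^ h ∈ J1Fam c0 E := by
  letI := algAK (padicPlace p) E.leL
  letI := algWO E.levL
  letI := algWO E.lev
  haveI : IsScalarTower (Wb p K) (Wb p E.L) ↥(intSubring p E.E) := tower_W_OL_OE E.leL E.levL
  haveI := isDVR_O E.E
  intro x hx
  exact exists_pow_mem_J1_transfer c0 (sameFibre_level E.levL (denseIn_level E) hπL.ne_zero)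
    (regular_level E.levL hπL.ne_zero) hgL XL
    (maximalIdeal_eq_span_of_sameFibre (toO E.levL)
      (sameFibre_level E.levL (denseIn_level E) hπL.ne_zero) hπL.max_eq) ne0L ne1L x hx

/-- The multidegree-zero subgroup of the package `ofNumField` is helper53's
`P00 (nodalGood_level …) (compHub …)`. -/
theorem LevelData.ofNumField_P00 (E : NLevel p K) {πL : Wb p E.L}
    (hπL : IsUnif (AK (padicPlace p) E.L) πL)
    (hgL : letI := algAK (padicPlace p) E.leL
      NodalGood (c0.baseChange (Wb p E.L)) πL (Fin 2))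
    (κ : Type) [Field κ] [Finite κ]
    (XL : letI := algAK (padicPlace p) E.leL
      ∀ i, Comp (c0.baseChange (Wb p E.L)) (hgL.P0 i) (hgL.P1 i) κ)
    (connL : letI := algAK (padicPlace p) E.leL
      Connected hgL)
    (ne0L : letI := algAK (padicPlace p) E.leL
      ¬ hgL.P0 1 ≤ hgL.P0 0)
    (ne1L : letI := algAK (padicPlace p) E.leL
      ¬ hgL.P1 1 ≤ hgL.P1 0) :
    letI := algAK (padicPlace p) E.leL
    letI := algWO E.levL
    letI := algWO E.lev
    haveI : IsScalarTower (Wb p K) (Wb p E.L) ↥(intSubring p E.E) := tower_W_OL_OE E.leL E.levL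
    (LevelData.ofNumField c0 E hπL hgL κ XL connL ne0L ne1L).P00 =
      (Fermat.Agent.T1B.Bal60.P00
        (nodalGood_level c0 E.leL E.levL (denseIn_level E) hπL.ne_zero hgL)
        (compHub c0 (sameFibre_level E.levL (denseIn_level E) hπL.ne_zero)
          (regular_level E.levL hπL.ne_zero) hgL XL) : Subgroup (PicO c0 E)) :=
  rfl

/-- **`P00` over `O_E` restricts to `P00` over `O_L`** (helper53's `Bal.map_mem_P00_iff` for the
package `ofNumField`). -/
theorem LevelData.map_mem_ofNumField_P00_iff (E : NLevel p K) {πL : Wb p E.L}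
    (hπL : IsUnif (AK (padicPlace p) E.L) πL)
    (hgL : letI := algAK (padicPlace p) E.leL
      NodalGood (c0.baseChange (Wb p E.L)) πL (Fin 2))
    (κ : Type) [Field κ] [Finite κ]
    (XL : letI := algAK (padicPlace p) E.leL
      ∀ i, Comp (c0.baseChange (Wb p E.L)) (hgL.P0 i) (hgL.P1 i) κ)
    (connL : letI := algAK (padicPlace p) E.leL
      Connected hgL)
    (ne0L : letI := algAK (padicPlace p) E.leL
      ¬ hgL.P0 1 ≤ hgL.P0 0)
    (ne1L : letI := algAK (padicPlace p) E.leL
      ¬ hgL.P1 1 ≤ hgL.P1 0) :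
    letI := algAK (padicPlace p) E.leL
    letI := algWO E.levL
    letI := algWO E.lev
    haveI : IsScalarTower (Wb p K) (Wb p E.L) ↥(intSubring p E.E) := tower_W_OL_OE E.leL E.levL
    ∀ x : PicX c0 (Wb p E.L),
      PicX.map c0 (Wb p E.L) ↥(intSubring p E.E) x ∈
          (LevelData.ofNumField c0 E hπL hgL κ XL connL ne0L ne1L).P00 ↔
        x ∈ Fermat.Agent.T1B.Bal60.P00 hgL XL := by
  letI := algAK (padicPlace p) E.leL
  letI := algWO E.levL
  letI := algWO E.lev
  haveI : IsScalarTower (Wb p K) (Wb p E.L) ↥(intSubring p E.E) := tower_W_OL_OE E.leL E.levL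
  intro x
  exact map_mem_P00_iff c0 (sameFibre_level E.levL (denseIn_level E) hπL.ne_zero)
    (regular_level E.levL hπL.ne_zero) hgL XL x

end OfNumField

end Fermat.Agent.MAZ.K3Levels77
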