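/-
Programme MAZ (S15), brick TWIST-LEVELS (helper77), file 3 of `K3Levels77`: THE VERTICAL TWIST AT
EVERY LEVEL `O_E`, `E = E_L`.

`c0 : TwoChart (Wb p K) B0 B1 B01` any two-chart datum over `W = Wb p K`, `E : NLevel p K`,
`L = E.L`, `O_L = Wb p L` (a DVR, uniformiser `π_L`), and the nodal data over the NUMBER FIELD level
`O_L` : `hgL`, `XL` (over a finite `κ`), `connL`, `ne0L`, `ne1L` exactly as in
`LevelData.ofNumField`;  `D := LevelData.ofNumField c0 E hπL hgL κ XL connL ne0L ne1L`.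

Extra inputs (helper20's `CuspJ0_20`, at `O := O_L`, `L := ℚ̄_p`) :
`h0L : Twist.NodeReg0 hgL`, `h1L : Twist.NodeReg1 hgL` (thickness-one regularity at the nodes) and
`HL : Hub.CompHyp c0 (Wb p L) hgL XL`.

* `tower_W_OL_Kbar`, `flat_OL_Kbar`, `isUnit_OL_Kbar` : the tower `W → O_L → ℚ̄_p`, `ℚ̄_p` is flat
  over `O_L`, and a nonzero element of `O_L` is a unit of `ℚ̄_p`;
* `nodeNumberL` : `ν := Twist.nodeNumber hgL XL`;
* `exists_twist_numField` : helper20's `Hub.exists_twist` over `O_L` (towards `ℚ̄_p`);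
* **`exists_twist_level`** (a) : `∃ ν > 0, ∃ T : PicO c0 E, bcO c0 E T = 1 ∧ Mdeg D.hg D.X T = (ν, -ν)`
  (`T` the image over `O_E` of the twist over `O_L`);  `exists_twist_level_nu` : the same with
  `ν = nodeNumberL` explicit;
* **`pow_mem_J0top_level`** (b) : a class `x` over `O_E` of multidegree `(b, -b)` has
  `∃ n > 0, ∃ y ∈ D.P00, bcO c0 E y = bcO c0 E x ^ n`  (`n = ν`, `y = x ^ ν * T ^ (-b)`);
* `pow_div_mem_J0top_level` (CUSP' at the level) : for `y0`, `y1` over `O_E` of multidegrees `-e_0`,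
  `-e_1`, `∃ n > 0, ∃ y ∈ D.P00, bcO c0 E y = (bcO c0 E y0 / bcO c0 E y1) ^ n`.
-/
import Mathlib
import Fermat.Agent.MAZ.K3Levels77.Level
import Fermat.Agent.MAZ.CuspJ0_20.Hub

set_option autoImplicit false
set_option linter.unusedSectionVars false
set_option linter.style.haveILetI false
set_option synthInstance.maxHeartbeats 400000
set_option maxHeartbeats 1000000

open TensorProduct

open Fermat.Agent.TW.B5.Iface Fermat.Agent.RED.Interface4 Fermat.Agent.T1.HubInst98
open Fermat.Agent.T1.IntSub47 Fermat.Agent.Jac Fermat.Agent.Jac.BaseChange75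
open Fermat.Agent.T1.RedIface75 Fermat.Agent.T1.Red11
open Fermat.Agent.T1B.RedN3 Fermat.Agent.T1B.Bal60
open Fermat.Agent.T1B.Local66.LocalBase Fermat.Agent.T1B.Local66.Union
open Fermat.Agent.T1B.Bridge54.IpUnion
open Fermat.Agent.T1B.NodalBC53.Fibre Fermat.Agent.T1B.NodalBC53.Transfer
  Fermat.Agent.T1B.NodalBC53.Bal Fermat.Agent.T1B.NodalBC53.Level
open Fermat.Agent.RED.PUR.GaussGen8 (IsUnif)
open Fermat.Agent.MAZ.CuspJ0_20
open scoped Fermat.Agent.Jac.BaseChange75

noncomputable section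

namespace Fermat.Agent.MAZ.K3Levels77

/-! ### `ℚ̄_p` over the number field level `O_L` -/

section Base

variable {p : ℕ} [Fact p.Prime] {K L : IntermediateField ℚ Qbar}

/-- The tower `W = O_K → O_L → ℚ̄_p`. -/
theorem tower_W_OL_Kbar (h : K ≤ L) :
    letI := algAK (padicPlace p) h
    letI := algWKbar p K
    letI := algWKbar p L
    IsScalarTower (Wb p K) (Wb p L) (Kbar p) := by
  letI := algAK (padicPlace p) h
  letI := algWKbar p K
  letI := algWKbar p L
  exact IsScalarTower.of_algebraMap_eq' rfl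

/-- The tower `O_L → O_E → ℚ̄_p` is `tower_W_O_Kbar` for `L`. -/
theorem tower_OL_OE_Kbar {E : IntermediateField ℚ_[p] (Kbar p)} (hL : IsLevel p L E) :
    letI := algWO hL
    letI := algWKbar p L
    letI := algOKbar E
    IsScalarTower (Wb p L) ↥(intSubring p E) (Kbar p) :=
  tower_W_O_Kbar hL

variable (p) in
/-- `ℚ̄_p` is flat over the DVR `O_L`. -/
theorem flat_OL_Kbar (L : IntermediateField ℚ Qbar) [FiniteDimensional ℚ L] :
    letI := algWKbar p L
    Module.Flat (Wb p L) (Kbar p) := by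
  letI := algWKbar p L
  haveI : IsDiscreteValuationRing (Wb p L) :=
    isDVR_AK (padicPlace p) (Fact.out : p.Prime).ne_zero
      (Fermat.Agent.T1.LocModel46.liesOverPrime p) L
  haveI : Module.IsTorsionFree (Wb p L) (Kbar p) :=
    Module.isTorsionFree_iff_algebraMap_injective.mpr (iotaW_injective p L)
  infer_instance

/-- A nonzero element of `O_L` is a unit of `ℚ̄_p`. -/
theorem isUnit_OL_Kbar {π : Wb p L} (hπ : π ≠ 0) :
    letI := algWKbar p L
    IsUnit (algebraMap (Wb p L) (Kbar p) π) := by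
  letI := algWKbar p L
  refine isUnit_iff_ne_zero.2 fun h0 => hπ (iotaW_injective p L ?_)
  rw [map_zero]
  exact h0

end Base

variable {p : ℕ} [Fact p.Prime] {K : IntermediateField ℚ Qbar}
  {B0 B1 B01 : Type} [CommRing B0] [CommRing B1] [CommRing B01]
  [Algebra (Wb p K) B0] [Algebra (Wb p K) B1] [Algebra (Wb p K) B01] [Algebra B0 B01]
  [Algebra B1 B01] [IsScalarTower (Wb p K) B0 B01] [IsScalarTower (Wb p K) B1 B01]
  [Module.Flat (Wb p K) B0] [Module.Flat (Wb p K) B1] [Module.Flat (Wb p K) B01]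
  (c0 : TwoChart (Wb p K) B0 B1 B01)

/-! ### The number of nodes -/

section TwistL

variable (E : NLevel p K) {πL : Wb p E.L}
  (hgL : letI := algAK (padicPlace p) E.leL
    NodalGood (c0.baseChange (Wb p E.L)) πL (Fin 2))
  {κ : Type} [Field κ]
  (XL : letI := algAK (padicPlace p) E.leL
    ∀ i, Comp (c0.baseChange (Wb p E.L)) (hgL.P0 i) (hgL.P1 i) κ)

/-- `ν`, the number of nodes (with residue degrees), computed over `O_L`. -/
def nodeNumberL : ℕ :=
  letI := algAK (padicPlace p) E.leL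
  Twist.nodeNumber hgL XL

end TwistL

/-! ### The main statements -/

section Main

variable (E : NLevel p K) {πL : Wb p E.L}
  (hπL : IsUnif (AK (padicPlace p) E.L) πL)
  (hgL : letI := algAK (padicPlace p) E.leL
    NodalGood (c0.baseChange (Wb p E.L)) πL (Fin 2))
  (κ : Type) [Field κ] [Finite κ]
  (XL : letI := algAK (padicPlace p) E.leL
    ∀ i, Comp (c0.baseChange (Wb p E.L)) (hgL.P0 i) (hgL.P1 i) κ)
  (connL : letI := algAK (padicPlace p) E.leL
    Connected hgL)
  (ne0L : letI := algAK (padicPlace p) E.leL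
    ¬ hgL.P0 1 ≤ hgL.P0 0)
  (ne1L : letI := algAK (padicPlace p) E.leL
    ¬ hgL.P1 1 ≤ hgL.P1 0)
  (h0L : letI := algAK (padicPlace p) E.leL
    Twist.NodeReg0 hgL)
  (h1L : letI := algAK (padicPlace p) E.leL
    Twist.NodeReg1 hgL)
  (HL : letI := algAK (padicPlace p) E.leL
    Hub.CompHyp c0 (Wb p E.L) hgL XL)

include hπL h0L h1L HL in
/-- The twist over `O_L` (helper20's `Hub.exists_twist` at `O := O_L`, `L := ℚ̄_p`). -/
theorem exists_twist_numField :
    letI := algAK (padicPlace p) E.leL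
    letI := algWKbar p K
    letI := algWKbar p E.L
    haveI := tower_W_OL_Kbar (p := p) E.leL
    0 < nodeNumberL c0 E hgL XL ∧ ∃ T : PicX c0 (Wb p E.L),
      PicX.map c0 (Wb p E.L) (Kbar p) T = 1 ∧
      Mdeg hgL XL T 0 = Multiplicative.ofAdd (nodeNumberL c0 E hgL XL : ℤ) ∧
      Mdeg hgL XL T 1 = Multiplicative.ofAdd (-(nodeNumberL c0 E hgL XL : ℤ)) := by
  letI := algAK (padicPlace p) E.leL
  letI := algWKbar p K
  letI := algWKbar p E.L
  haveI := tower_W_OL_Kbar (p := p) E.leL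
  haveI := flat_OL_Kbar p E.L
  exact Hub.exists_twist (Kbar p) h0L h1L (isUnit_OL_Kbar hπL.ne_zero) HL

include hπL h0L h1L HL in
/-- **(a) THE TWIST AT THE LEVEL `O_E`**, with `ν = nodeNumberL` explicit: a class `T` over `O_E`,
trivial over `ℚ̄_p`, of multidegree `(ν, -ν)`, `ν > 0`. -/
theorem exists_twist_level_nu :
    letI := algWO E.lev
    0 < nodeNumberL c0 E hgL XL ∧ ∃ T : PicO c0 E, bcO c0 E T = 1 ∧
      Mdeg (LevelData.ofNumField c0 E hπL hgL κ XL connL ne0L ne1L).hg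
          (LevelData.ofNumField c0 E hπL hgL κ XL connL ne0L ne1L).X T 0 =
        Multiplicative.ofAdd (nodeNumberL c0 E hgL XL : ℤ) ∧
      Mdeg (LevelData.ofNumField c0 E hπL hgL κ XL connL ne0L ne1L).hg
          (LevelData.ofNumField c0 E hπL hgL κ XL connL ne0L ne1L).X T 1 =
        Multiplicative.ofAdd (-(nodeNumberL c0 E hgL XL : ℤ)) := by
  letI := algAK (padicPlace p) E.leL
  letI := algWO E.levL
  letI := algWO E.lev
  letI := algWKbar p K
  letI := algWKbar p E.L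
  letI := algOKbar E.E
  haveI : IsScalarTower (Wb p K) (Wb p E.L) ↥(intSubring p E.E) := tower_W_OL_OE E.leL E.levL
  haveI := tower_W_OL_Kbar (p := p) E.leL
  haveI := tower_W_O_Kbar E.lev
  haveI : IsScalarTower (Wb p E.L) ↥(intSubring p E.E) (Kbar p) := tower_OL_OE_Kbar E.levL
  obtain ⟨hν, T, hT, hT0, hT1⟩ := exists_twist_numField c0 E hπL hgL κ XL h0L h1L HL
  refine ⟨hν, PicX.map c0 (Wb p E.L) ↥(intSubring p E.E) T, ?_, ?_, ?_⟩
  · exact (PicX.map_comp c0 (Wb p E.L) ↥(intSubring p E.E) (Kbar p) T).trans hT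
  · exact (Mdeg_map_transfer c0 (sameFibre_level E.levL (denseIn_level E) hπL.ne_zero)
      (regular_level E.levL hπL.ne_zero) hgL XL T 0).trans hT0
  · exact (Mdeg_map_transfer c0 (sameFibre_level E.levL (denseIn_level E) hπL.ne_zero)
      (regular_level E.levL hπL.ne_zero) hgL XL T 1).trans hT1

include hπL h0L h1L HL in
/-- **(a) THE TWIST AT THE LEVEL `O_E`** : `∃ ν > 0, ∃ T : PicO c0 E, bcO c0 E T = 1 ∧
Mdeg T = (ν, -ν)`. -/
theorem exists_twist_level :
    letI := algWO E.lev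
    ∃ ν : ℕ, 0 < ν ∧ ∃ T : PicO c0 E, bcO c0 E T = 1 ∧
      Mdeg (LevelData.ofNumField c0 E hπL hgL κ XL connL ne0L ne1L).hg
          (LevelData.ofNumField c0 E hπL hgL κ XL connL ne0L ne1L).X T 0 =
        Multiplicative.ofAdd (ν : ℤ) ∧
      Mdeg (LevelData.ofNumField c0 E hπL hgL κ XL connL ne0L ne1L).hg
          (LevelData.ofNumField c0 E hπL hgL κ XL connL ne0L ne1L).X T 1 =
        Multiplicative.ofAdd (-(ν : ℤ)) :=
  ⟨nodeNumberL c0 E hgL XL,
    exists_twist_level_nu c0 E hπL hgL κ XL connL ne0L ne1L h0L h1L HL⟩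

include h0L h1L HL in
/-- **(b) A CLASS OF MULTIDEGREE `(b, -b)` OVER `O_E` HAS ITS `ν`-TH POWER IN THE IMAGE OF `P00`**,
with `ν = nodeNumberL` explicit. -/
theorem pow_mem_J0top_level_nu (x : PicO c0 E) (b : ℤ)
    (hx0 : letI := algWO E.lev
      Mdeg (LevelData.ofNumField c0 E hπL hgL κ XL connL ne0L ne1L).hg
          (LevelData.ofNumField c0 E hπL hgL κ XL connL ne0L ne1L).X x 0 =
        Multiplicative.ofAdd b)
    (hx1 : letI := algWO E.lev
      Mdeg (LevelData.ofNumField c0 E hπL hgL κ XL connL ne0L ne1L).hg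
          (LevelData.ofNumField c0 E hπL hgL κ XL connL ne0L ne1L).X x 1 =
        Multiplicative.ofAdd (-b)) :
    0 < nodeNumberL c0 E hgL XL ∧
      ∃ y ∈ (LevelData.ofNumField c0 E hπL hgL κ XL connL ne0L ne1L).P00,
        bcO c0 E y = bcO c0 E x ^ nodeNumberL c0 E hgL XL := by
  letI := algWO E.lev
  obtain ⟨hν, T, hT, hT0, hT1⟩ :=
    exists_twist_level_nu c0 E hπL hgL κ XL connL ne0L ne1L h0L h1L HL
  refine ⟨hν, x ^ nodeNumberL c0 E hgL XL * T ^ (-b), ?_, ?_⟩
  · show _ ∈ Fermat.Agent.T1B.Bal60.P00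
      (LevelData.ofNumField c0 E hπL hgL κ XL connL ne0L ne1L).hg
      (LevelData.ofNumField c0 E hπL hgL κ XL connL ne0L ne1L).X
    rw [P00_eq_ker, MonoidHom.mem_ker]
    funext i
    rw [map_mul, map_pow, map_zpow, Pi.mul_apply, Pi.pow_apply, Pi.pow_apply, Pi.one_apply]
    revert i
    rw [Fin.forall_fin_two]
    constructor
    · rw [hx0, hT0, ← ofAdd_nsmul, ← ofAdd_zsmul, ← ofAdd_add, ← ofAdd_zero]
      congr 1
      simp only [smul_eq_mul, nsmul_eq_mul]
      ring
    · rw [hx1, hT1, ← ofAdd_nsmul, ← ofAdd_zsmul, ← ofAdd_add, ← ofAdd_zero]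
      congr 1
      simp only [smul_eq_mul, nsmul_eq_mul]
      ring
  · rw [map_mul, map_pow, map_zpow, hT, one_zpow, mul_one]

include h0L h1L HL in
/-- **(b)** : `∀ x b, Mdeg x = (b, -b) → ∃ n > 0, ∃ y ∈ P00, bcO c0 E y = bcO c0 E x ^ n`. -/
theorem pow_mem_J0top_level :
    letI := algWO E.lev
    ∀ (x : PicO c0 E) (b : ℤ),
      Mdeg (LevelData.ofNumField c0 E hπL hgL κ XL connL ne0L ne1L).hg
          (LevelData.ofNumField c0 E hπL hgL κ XL connL ne0L ne1L).X x 0 =
        Multiplicative.ofAdd b →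
      Mdeg (LevelData.ofNumField c0 E hπL hgL κ XL connL ne0L ne1L).hg
          (LevelData.ofNumField c0 E hπL hgL κ XL connL ne0L ne1L).X x 1 =
        Multiplicative.ofAdd (-b) →
      ∃ n : ℕ, 0 < n ∧ ∃ y ∈ (LevelData.ofNumField c0 E hπL hgL κ XL connL ne0L ne1L).P00,
        bcO c0 E y = bcO c0 E x ^ n :=
  fun x b hx0 hx1 => ⟨nodeNumberL c0 E hgL XL,
    pow_mem_J0top_level_nu c0 E hπL hgL κ XL connL ne0L ne1L h0L h1L HL x b hx0 hx1⟩

include h0L h1L HL in
/-- **CUSP' at the level `O_E`** : for two classes over `O_E` of multidegrees `-e_0`, `-e_1`,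
a power of `bcO y0 / bcO y1` comes from `P00`. -/
theorem pow_div_mem_J0top_level (y0 y1 : PicO c0 E)
    (hy0 : letI := algWO E.lev
      Mdeg (LevelData.ofNumField c0 E hπL hgL κ XL connL ne0L ne1L).hg
          (LevelData.ofNumField c0 E hπL hgL κ XL connL ne0L ne1L).X y0 =
        (Pi.mulSingle (0 : Fin 2) (Multiplicative.ofAdd (-1 : ℤ)) : Fin 2 → Multiplicative ℤ))
    (hy1 : letI := algWO E.lev
      Mdeg (LevelData.ofNumField c0 E hπL hgL κ XL connL ne0L ne1L).hg
          (LevelData.ofNumField c0 E hπL hgL κ XL connL ne0L ne1L).X y1 =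
        (Pi.mulSingle (1 : Fin 2) (Multiplicative.ofAdd (-1 : ℤ)) : Fin 2 → Multiplicative ℤ)) :
    ∃ n : ℕ, 0 < n ∧ ∃ y ∈ (LevelData.ofNumField c0 E hπL hgL κ XL connL ne0L ne1L).P00,
      bcO c0 E y = (bcO c0 E y0 / bcO c0 E y1) ^ n := by
  letI := algWO E.lev
  have h := pow_mem_J0top_level c0 E hπL hgL κ XL connL ne0L ne1L h0L h1L HL (y0 / y1) (-1)
    (by rw [map_div, Pi.div_apply, hy0, hy1, Pi.mulSingle_eq_same,
          Pi.mulSingle_eq_of_ne (by decide), div_one])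
    (by rw [map_div, Pi.div_apply, hy0, hy1, Pi.mulSingle_eq_same,
          Pi.mulSingle_eq_of_ne (by decide), one_div, ← ofAdd_neg])
  simpa only [map_div] using h

end Main

end Fermat.Agent.MAZ.K3Levels77
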